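import Mathlib
import Fermat.Agent.S55.Local.H535.A3

/-!
# S55 layer L, piece CY1 (abstract core) — helper854

Abstract version of the "good subgroup" construction: `L / K` a finite extension of fields with
`G = L ≃ₐ[K] L`, `σ : G`, `OL` a `G`-stable subring of `L`, `ϖ` a `G`-fixed nonzero element of
`OL` such that `1 + ϖ OL ⊆ OLˣ`, and `M ⊆ OL` a `G`-stable additive subgroup with
`ϖ ^ c • OL ⊆ M`, `ϖ`-adically complete and separated, such that the Tate cohomology of `M` for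
`(σ, Tr)` vanishes (in degree `0` exactly, in degree `-1` modulo `ϖ`).  Then
`V_j = 1 + ϖ ^ (c + 1 + j) M` are `G`-stable subgroups of `Lˣ` and `V_0` satisfies

* `x ∈ V_0`, `σ x = x`  ⇒  `x = N y` with `y ∈ V_0`;
* `x ∈ V_0`, `N x = 1`  ⇒  `x = σ y / y` with `y ∈ V_0`.
-/

set_option autoImplicit false
set_option linter.unusedSectionVars false

namespace Fermat.Agent.S55.Local.H854

open scoped BigOperators

/-- Abstract lattice data for the construction of a cohomologically trivial subgroup of units. -/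
structure LatData (K L : Type) [Field K] [Field L] [Algebra K L] [FiniteDimensional K L]
    (σ : L ≃ₐ[K] L) where
  /-- the ring of integers -/
  OL : Subring L
  /-- the lattice -/
  M : AddSubgroup L
  /-- the uniformizing parameter (any nonzero non-unit fixed by the group) -/
  ϖ : L
  /-- the conductor exponent -/
  c : ℕ
  ϖ_ne : ϖ ≠ 0
  ϖ_mem : ϖ ∈ OL
  ϖ_fix : ∀ g : L ≃ₐ[K] L, g ϖ = ϖ
  OL_stable : ∀ (g : L ≃ₐ[K] L) (x : L), x ∈ OL → g x ∈ OL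
  unit : ∀ w ∈ OL, ∃ v ∈ OL, (1 + ϖ * w) * v = 1
  M_le : ∀ x ∈ M, x ∈ OL
  OL_le : ∀ x ∈ OL, ϖ ^ c * x ∈ M
  ϖM : ∀ x ∈ M, ϖ * x ∈ M
  M_stable : ∀ (g : L ≃ₐ[K] L) (x : L), x ∈ M → g x ∈ M
  complete : ∀ t : ℕ → L, (∀ n, t n ∈ M) → (∀ n, ∃ y ∈ M, t (n + 1) - t n = ϖ ^ n * y) →
      ∃ s ∈ M, ∀ n, ∃ y ∈ M, s - t n = ϖ ^ n * y
  separated : ∀ x : L, (∀ n, ∃ y ∈ M, x = ϖ ^ n * y) → x = 0
  h0 : ∀ a ∈ M, σ a = a → ∃ b ∈ M, ∑ g : L ≃ₐ[K] L, g b = a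
  hm1 : ∀ a ∈ M, (∃ y ∈ M, ∑ g : L ≃ₐ[K] L, g a = ϖ * y) →
      ∃ b ∈ M, ∃ y ∈ M, a - (σ b - b) = ϖ * y

namespace LatData

variable {K L : Type} [Field K] [Field L] [Algebra K L] [FiniteDimensional K L]
  {σ : L ≃ₐ[K] L} (D : LatData K L σ)

/-- `x ∈ ϖ ^ m M`. -/
def InM (m : ℕ) (x : L) : Prop := ∃ y ∈ D.M, x = D.ϖ ^ m * y

/-- `x ∈ ϖ ^ m OL`. -/
def InO (m : ℕ) (x : L) : Prop := ∃ w ∈ D.OL, x = D.ϖ ^ m * w

variable {D}

lemma inM_zero (m : ℕ) : D.InM m 0 := ⟨0, D.M.zero_mem, by simp⟩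

lemma InM.add {m : ℕ} {x y : L} (hx : D.InM m x) (hy : D.InM m y) : D.InM m (x + y) := by
  obtain ⟨a, ha, rfl⟩ := hx
  obtain ⟨b, hb, rfl⟩ := hy
  exact ⟨a + b, D.M.add_mem ha hb, by ring⟩

lemma InM.neg {m : ℕ} {x : L} (hx : D.InM m x) : D.InM m (-x) := by
  obtain ⟨a, ha, rfl⟩ := hx
  exact ⟨-a, D.M.neg_mem ha, by ring⟩

lemma InM.sub {m : ℕ} {x y : L} (hx : D.InM m x) (hy : D.InM m y) : D.InM m (x - y) := by
  rw [sub_eq_add_neg]; exact hx.add hy.neg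

lemma inO_zero (m : ℕ) : D.InO m 0 := ⟨0, D.OL.zero_mem, by simp⟩

lemma InO.add {m : ℕ} {x y : L} (hx : D.InO m x) (hy : D.InO m y) : D.InO m (x + y) := by
  obtain ⟨a, ha, rfl⟩ := hx
  obtain ⟨b, hb, rfl⟩ := hy
  exact ⟨a + b, D.OL.add_mem ha hb, by ring⟩

lemma InO.neg {m : ℕ} {x : L} (hx : D.InO m x) : D.InO m (-x) := by
  obtain ⟨a, ha, rfl⟩ := hx
  exact ⟨-a, D.OL.neg_mem ha, by ring⟩

lemma InO.sub {m : ℕ} {x y : L} (hx : D.InO m x) (hy : D.InO m y) : D.InO m (x - y) := by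
  rw [sub_eq_add_neg]; exact hx.add hy.neg

lemma pow_mul_mem_M (k : ℕ) {x : L} (hx : x ∈ D.M) : D.ϖ ^ k * x ∈ D.M := by
  induction k with
  | zero => simpa using hx
  | succ k ih =>
    have := D.ϖM _ ih
    rwa [← mul_assoc, ← pow_succ'] at this

lemma pow_mem_OL (k : ℕ) : D.ϖ ^ k ∈ D.OL := D.OL.pow_mem D.ϖ_mem k

lemma inM_zero_iff {x : L} : D.InM 0 x ↔ x ∈ D.M := by
  constructor
  · rintro ⟨y, hy, rfl⟩; simpa using hy
  · intro hx; exact ⟨x, hx, by simp⟩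

lemma inO_zero_iff {x : L} : D.InO 0 x ↔ x ∈ D.OL := by
  constructor
  · rintro ⟨y, hy, rfl⟩; simpa using hy
  · intro hx; exact ⟨x, hx, by simp⟩

lemma InM.mono {m m' : ℕ} (h : m ≤ m') {x : L} (hx : D.InM m' x) : D.InM m x := by
  obtain ⟨y, hy, rfl⟩ := hx
  obtain ⟨k, rfl⟩ := Nat.exists_eq_add_of_le h
  exact ⟨D.ϖ ^ k * y, pow_mul_mem_M k hy, by ring⟩

lemma InO.mono {m m' : ℕ} (h : m ≤ m') {x : L} (hx : D.InO m' x) : D.InO m x := by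
  obtain ⟨y, hy, rfl⟩ := hx
  obtain ⟨k, rfl⟩ := Nat.exists_eq_add_of_le h
  exact ⟨D.ϖ ^ k * y, D.OL.mul_mem (pow_mem_OL k) hy, by ring⟩

lemma InM.toInO {m : ℕ} {x : L} (hx : D.InM m x) : D.InO m x := by
  obtain ⟨y, hy, rfl⟩ := hx
  exact ⟨y, D.M_le y hy, rfl⟩

lemma InO.toInM {m : ℕ} {x : L} (hx : D.InO (D.c + m) x) : D.InM m x := by
  obtain ⟨w, hw, rfl⟩ := hx
  exact ⟨D.ϖ ^ D.c * w, D.OL_le w hw, by ring⟩

lemma InO.mem_OL {m : ℕ} {x : L} (hx : D.InO m x) : x ∈ D.OL := by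
  obtain ⟨w, hw, rfl⟩ := hx
  exact D.OL.mul_mem (pow_mem_OL m) hw

lemma InO.mul {a b : ℕ} {x y : L} (hx : D.InO a x) (hy : D.InO b y) : D.InO (a + b) (x * y) := by
  obtain ⟨v, hv, rfl⟩ := hx
  obtain ⟨w, hw, rfl⟩ := hy
  exact ⟨v * w, D.OL.mul_mem hv hw, by ring⟩

lemma InO.mul_mem {a : ℕ} {x w : L} (hx : D.InO a x) (hw : w ∈ D.OL) : D.InO a (x * w) := by
  obtain ⟨v, hv, rfl⟩ := hx
  exact ⟨v * w, D.OL.mul_mem hv hw, by ring⟩

/-- Key lemma: `ϖ ^ a M` is stable under multiplication by `1 + ϖ ^ m OL`, `m ≥ c`. -/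
lemma InM.mul_of {a m : ℕ} {x v : L} (hx : D.InM a x) (hv : D.InO m (v - 1)) (hm : D.c ≤ m) :
    D.InM a (x * v) := by
  have h1 : x * v = x + x * (v - 1) := by ring
  rw [h1]
  refine hx.add ?_
  have h2 : D.InO (a + m) (x * (v - 1)) := hx.toInO.mul hv
  obtain ⟨k, rfl⟩ := Nat.exists_eq_add_of_le hm
  have h3 : D.InO (D.c + (a + k)) (x * (v - 1)) := by
    have : a + (D.c + k) = D.c + (a + k) := by ring
    rwa [this] at h2
  exact (h3.toInM).mono (Nat.le_add_right a k)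

lemma InM.map (g : L ≃ₐ[K] L) {m : ℕ} {x : L} (hx : D.InM m x) : D.InM m (g x) := by
  obtain ⟨y, hy, rfl⟩ := hx
  exact ⟨g y, D.M_stable g y hy, by rw [map_mul, map_pow, D.ϖ_fix]⟩

lemma InO.map (g : L ≃ₐ[K] L) {m : ℕ} {x : L} (hx : D.InO m x) : D.InO m (g x) := by
  obtain ⟨y, hy, rfl⟩ := hx
  exact ⟨g y, D.OL_stable g y hy, by rw [map_mul, map_pow, D.ϖ_fix]⟩

lemma pow_ne_zero' (m : ℕ) : D.ϖ ^ m ≠ 0 := pow_ne_zero m D.ϖ_ne

/-- Units congruent to `1` modulo `ϖ` have integral inverse. -/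
lemma inv_mem_OL {u : Lˣ} {m : ℕ} (hm : 1 ≤ m) (h : D.InO m ((u : L) - 1)) :
    ((u⁻¹ : Lˣ) : L) ∈ D.OL := by
  obtain ⟨w, hw, hw'⟩ := (h.mono hm)
  obtain ⟨v, hv, hv'⟩ := D.unit w hw
  have hu : (u : L) = 1 + D.ϖ * w := by
    rw [pow_one] at hw'; rw [← hw']; ring
  rw [← hu] at hv'
  have : ((u⁻¹ : Lˣ) : L) = v := by
    rw [Units.val_inv_eq_inv_val]
    exact (eq_inv_of_mul_eq_one_right hv').symm
  rw [this]; exact hv

lemma val_mem_OL {u : Lˣ} {m : ℕ} (h : D.InO m ((u : L) - 1)) : (u : L) ∈ D.OL := by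
  have := D.OL.add_mem h.mem_OL D.OL.one_mem
  simpa using this

/-- `1 + ϖ ^ m y`, `m ≥ 1`, `y ∈ OL`, as a unit of `L`. -/
lemma one_add_ne_zero {m : ℕ} (hm : 1 ≤ m) {y : L} (hy : y ∈ D.OL) : 1 + D.ϖ ^ m * y ≠ 0 := by
  obtain ⟨k, rfl⟩ := Nat.exists_eq_add_of_le hm
  obtain ⟨v, -, hv'⟩ := D.unit (D.ϖ ^ k * y) (D.OL.mul_mem (pow_mem_OL k) hy)
  intro h0
  have : 1 + D.ϖ * (D.ϖ ^ k * y) = 0 := by rw [← h0]; ring
  rw [this, zero_mul] at hv'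
  exact zero_ne_one hv'

variable (D)

/-- The filtration `V_j = 1 + ϖ ^ (c + 1 + j) M` of the unit group. -/
def V (j : ℕ) : Subgroup Lˣ where
  carrier := {u | D.InM (D.c + 1 + j) ((u : L) - 1)}
  one_mem' := by
    show D.InM _ (((1 : Lˣ) : L) - 1)
    rw [Units.val_one, sub_self]; exact inM_zero _
  mul_mem' := by
    intro u v hu hv
    show D.InM _ (((u * v : Lˣ) : L) - 1)
    have h1 : ((u * v : Lˣ) : L) - 1 = ((u : L) - 1) * v + ((v : L) - 1) := by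
      rw [Units.val_mul]; ring
    rw [h1]
    exact (InM.mul_of hu (InM.toInO hv) (by omega)).add hv
  inv_mem' := by
    intro u hu
    show D.InM _ (((u⁻¹ : Lˣ) : L) - 1)
    have hinv : ((u⁻¹ : Lˣ) : L) ∈ D.OL := inv_mem_OL (by omega) (InM.toInO hu)
    have h1 : ((u⁻¹ : Lˣ) : L) - 1 = -(((u : L) - 1) * ((u⁻¹ : Lˣ) : L)) := by
      have : (u : L) * ((u⁻¹ : Lˣ) : L) = 1 := Units.mul_inv u
      linear_combination this
    have h2 : D.InO (D.c + 1 + j) (((u⁻¹ : Lˣ) : L) - 1) := by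
      rw [h1]; exact ((InM.toInO hu).mul_mem hinv).neg
    rw [h1]
    exact (InM.mul_of hu h2 (by omega)).neg

variable {D}

lemma mem_V {j : ℕ} {u : Lˣ} : u ∈ D.V j ↔ D.InM (D.c + 1 + j) ((u : L) - 1) := Iff.rfl

lemma V_anti {i j : ℕ} (h : i ≤ j) : D.V j ≤ D.V i := fun _ hu =>
  InM.mono (by omega) (mem_V.1 hu)

lemma V_le_V0 (j : ℕ) : D.V j ≤ D.V 0 := V_anti (Nat.zero_le j)

lemma smul_val (g : L ≃ₐ[K] L) (u : Lˣ) : ((g • u : Lˣ) : L) = g (u : L) := by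
  rw [AlgEquiv.smul_units_def]; rfl

lemma smul_mem_V (g : L ≃ₐ[K] L) {j : ℕ} {u : Lˣ} (hu : u ∈ D.V j) : g • u ∈ D.V j := by
  rw [mem_V] at hu ⊢
  have := hu.map g
  rwa [map_sub, map_one, ← smul_val] at this

lemma V_val_mem_OL {j : ℕ} {u : Lˣ} (hu : u ∈ D.V j) : (u : L) ∈ D.OL :=
  val_mem_OL (InM.toInO (mem_V.1 hu))

lemma V_inv_mem_OL {j : ℕ} {u : Lˣ} (hu : u ∈ D.V j) : ((u⁻¹ : Lˣ) : L) ∈ D.OL :=
  inv_mem_OL (by omega) (InM.toInO (mem_V.1 hu))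

/-- `V_0` contains the higher unit group of level `2 c + 1`. -/
lemma mem_V0_of_inO {u : Lˣ} (h : D.InO (2 * D.c + 1) ((u : L) - 1)) : u ∈ D.V 0 := by
  rw [mem_V]
  have : 2 * D.c + 1 = D.c + (D.c + 1 + 0) := by ring
  rw [this] at h
  exact h.toInM

/-- stability of `ϖ ^ a M` under multiplication by elements of `V_j`. -/
lemma InM.mul_V {a j : ℕ} {x : L} (hx : D.InM a x) {v : Lˣ} (hv : v ∈ D.V j) :
    D.InM a (x * (v : L)) :=
  hx.mul_of (InM.toInO (mem_V.1 hv)) (by omega)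

/-- Construct an element of `V_j` from `y ∈ M`. -/
lemma exists_unit_of_mem (j : ℕ) {y : L} (hy : y ∈ D.M) :
    ∃ u : Lˣ, u ∈ D.V j ∧ (u : L) = 1 + D.ϖ ^ (D.c + 1 + j) * y := by
  have hne : 1 + D.ϖ ^ (D.c + 1 + j) * y ≠ 0 := one_add_ne_zero (by omega) (D.M_le y hy)
  refine ⟨Units.mk0 _ hne, ?_, rfl⟩
  rw [mem_V]
  exact ⟨y, hy, by simp⟩

/-! ### Completeness and separatedness of the filtration -/

lemma V_separated (x : Lˣ) (hx : ∀ j, x ∈ D.V j) : x = 1 := by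
  have h0 : (x : L) - 1 = 0 := by
    apply D.separated
    intro n
    have := InM.mono (show n ≤ D.c + 1 + n by omega) (mem_V.1 (hx n))
    exact this
  ext
  rw [Units.val_one]
  exact sub_eq_zero.1 h0

lemma V_complete (u : ℕ → Lˣ) (hu : ∀ j, u j ∈ D.V j) :
    ∃ s : Lˣ, ∀ n, s / ∏ j ∈ Finset.range n, u j ∈ D.V n := by
  classical
  set P : ℕ → Lˣ := fun n => ∏ j ∈ Finset.range n, u j with hP
  have hP0 : ∀ n, P n ∈ D.V 0 := fun n =>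
    Subgroup.prod_mem _ (fun j _ => V_le_V0 j (hu j))
  -- coordinates `t n` with `P n = 1 + ϖ ^ (c + 1) * t n`
  have hex : ∀ n, ∃ y ∈ D.M, ((P n : Lˣ) : L) - 1 = D.ϖ ^ (D.c + 1 + 0) * y := fun n =>
    mem_V.1 (hP0 n)
  choose t ht ht' using hex
  have hstep : ∀ n, ∃ y ∈ D.M, t (n + 1) - t n = D.ϖ ^ n * y := by
    intro n
    obtain ⟨y, hy, hy'⟩ := mem_V.1 (hu n)
    -- P (n+1) - P n = P n * (u n - 1)
    have h1 : ((P (n + 1) : Lˣ) : L) - (P n : L) = (P n : L) * ((u n : L) - 1) := by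
      simp only [hP, Finset.prod_range_succ, Units.val_mul]; ring
    have h2 : D.InM 0 (y * (P n : L)) := (inM_zero_iff.2 hy).mul_V (hP0 n)
    refine ⟨y * (P n : L), inM_zero_iff.1 h2, ?_⟩
    have h3 : D.ϖ ^ (D.c + 1 + 0) * (t (n + 1) - t n) =
        D.ϖ ^ (D.c + 1 + 0) * (D.ϖ ^ n * (y * (P n : L))) := by
      have e1 := ht' (n + 1)
      have e2 := ht' n
      have : D.ϖ ^ (D.c + 1 + 0) * (t (n + 1) - t n) = ((P (n + 1) : Lˣ) : L) - (P n : L) := by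
        rw [mul_sub, ← e1, ← e2]; ring
      rw [this, h1, hy']; ring
    exact mul_left_cancel₀ (pow_ne_zero' _) h3
  obtain ⟨s₀, hs₀, hs₀'⟩ := D.complete t ht hstep
  obtain ⟨s, hsV, hs⟩ := exists_unit_of_mem (D := D) 0 hs₀
  refine ⟨s, fun n => ?_⟩
  rw [mem_V]
  obtain ⟨y, hy, hy'⟩ := hs₀' n
  have h1 : ((s / P n : Lˣ) : L) - 1 = (D.ϖ ^ (D.c + 1 + n) * y) * (((P n)⁻¹ : Lˣ) : L) := by
    rw [div_eq_mul_inv, Units.val_mul]
    have e2 := ht' n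
    have hPinv : ((P n : Lˣ) : L) * (((P n)⁻¹ : Lˣ) : L) = 1 := Units.mul_inv _
    have e3 : (s : L) - (P n : L) = D.ϖ ^ (D.c + 1 + n) * y := by
      have : (s : L) - (P n : L) = D.ϖ ^ (D.c + 1 + 0) * (s₀ - t n) := by
        rw [hs, mul_sub, ← e2]; ring
      rw [this, hy']; ring
    calc (s : L) * (((P n)⁻¹ : Lˣ) : L) - 1
        = ((s : L) - (P n : L)) * (((P n)⁻¹ : Lˣ) : L) +
            ((P n : L) * (((P n)⁻¹ : Lˣ) : L) - 1) := by ring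
      _ = (D.ϖ ^ (D.c + 1 + n) * y) * (((P n)⁻¹ : Lˣ) : L) := by
            rw [hPinv, e3]; ring
  rw [h1]
  exact InM.mul_V (j := 0) ⟨y, hy, rfl⟩ ((D.V 0).inv_mem (hP0 n))

/-! ### Norm and `σ - 1` on units -/

variable (K L) in
/-- The norm `u ↦ ∏ g, g • u` on `Lˣ`. -/
noncomputable def normHom : Lˣ →* Lˣ where
  toFun u := ∏ g : L ≃ₐ[K] L, g • u
  map_one' := by simp
  map_mul' u v := by simp [smul_mul', Finset.prod_mul_distrib]

/-- The map `u ↦ σ • u / u` on `Lˣ`. -/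
def sigmaSubOne (σ : L ≃ₐ[K] L) : Lˣ →* Lˣ where
  toFun u := σ • u / u
  map_one' := by simp
  map_mul' u v := by simp [smul_mul', mul_div_mul_comm]

@[simp] lemma normHom_apply (u : Lˣ) : normHom K L u = ∏ g : L ≃ₐ[K] L, g • u := rfl

@[simp] lemma sigmaSubOne_apply (τ : L ≃ₐ[K] L) (u : Lˣ) : sigmaSubOne τ u = τ • u / u := rfl

lemma smul_normHom (τ : L ≃ₐ[K] L) (u : Lˣ) : τ • normHom K L u = normHom K L u := by
  simp only [normHom_apply, Finset.smul_prod', ← mul_smul]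
  exact Fintype.prod_equiv (Equiv.mulLeft τ) _ _ (fun g => rfl)

lemma normHom_smul (τ : L ≃ₐ[K] L) (u : Lˣ) : normHom K L (τ • u) = normHom K L u := by
  simp only [normHom_apply, ← mul_smul]
  exact Fintype.prod_equiv (Equiv.mulRight τ) _ _ (fun g => rfl)

lemma sigmaSubOne_normHom (τ : L ≃ₐ[K] L) (u : Lˣ) : sigmaSubOne τ (normHom K L u) = 1 := by
  rw [sigmaSubOne_apply, smul_normHom, div_self']

lemma normHom_sigmaSubOne (τ : L ≃ₐ[K] L) (u : Lˣ) : normHom K L (sigmaSubOne τ u) = 1 := by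
  rw [sigmaSubOne_apply, map_div, normHom_smul, div_self']

lemma normHom_mem_V {j : ℕ} {u : Lˣ} (hu : u ∈ D.V j) : normHom K L u ∈ D.V j :=
  Subgroup.prod_mem _ (fun g _ => smul_mem_V g hu)

lemma sigmaSubOne_mem_V (τ : L ≃ₐ[K] L) {j : ℕ} {u : Lˣ} (hu : u ∈ D.V j) :
    sigmaSubOne τ u ∈ D.V j :=
  (D.V j).div_mem (smul_mem_V τ hu) hu

/-- Expansion of a finite product `∏ (1 + z g)` modulo `ϖ ^ (2m) OL`. -/
lemma prod_one_add {ι : Type} (S : Finset ι) (z : ι → L) {m : ℕ} (hz : ∀ i, D.InO m (z i)) :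
    D.InO (2 * m) (∏ i ∈ S, (1 + z i) - 1 - ∑ i ∈ S, z i) := by
  classical
  induction S using Finset.induction_on with
  | empty => simpa using inO_zero (D := D) (2 * m)
  | insert i S hi ih =>
    rw [Finset.prod_insert hi, Finset.sum_insert hi]
    have hsum : D.InO m (∑ j ∈ S, z j) := by
      clear ih hi
      induction S using Finset.induction_on with
      | empty => simpa using inO_zero (D := D) m
      | insert k S hk ih2 =>
        rw [Finset.sum_insert hk]; exact (hz k).add ih2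
    have h1 : (1 + z i) * ∏ j ∈ S, (1 + z j) - 1 - (z i + ∑ j ∈ S, z j) =
        (∏ j ∈ S, (1 + z j) - 1 - ∑ j ∈ S, z j) + z i * (∑ j ∈ S, z j) +
          z i * (∏ j ∈ S, (1 + z j) - 1 - ∑ j ∈ S, z j) := by ring
    rw [h1]
    have h2 : D.InO (2 * m) (z i * ∑ j ∈ S, z j) := by
      have := (hz i).mul hsum
      rwa [← two_mul] at this
    have h3 : D.InO (2 * m) (z i * (∏ j ∈ S, (1 + z j) - 1 - ∑ j ∈ S, z j)) := by
      have := ((hz i).mul ih).mono (show 2 * m ≤ m + 2 * m by omega)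
      exact this
    exact (ih.add h2).add h3

lemma normHom_val (u : Lˣ) : ((normHom K L u : Lˣ) : L) = ∏ g : L ≃ₐ[K] L, g (u : L) := by
  rw [normHom_apply, Units.coe_prod]
  exact Finset.prod_congr rfl (fun g _ => smul_val g u)

/-- `N (1 + ϖ^m y) = 1 + ϖ^m Tr y + O(ϖ^(2m))`. -/
lemma norm_expand {m : ℕ} {u : Lˣ} {y : L} (hy : y ∈ D.OL) (hu : (u : L) = 1 + D.ϖ ^ m * y) :
    D.InO (2 * m) (((normHom K L u : Lˣ) : L) - 1 - D.ϖ ^ m * ∑ g : L ≃ₐ[K] L, g y) := by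
  have h := prod_one_add (D := D) (Finset.univ : Finset (L ≃ₐ[K] L))
    (fun g => D.ϖ ^ m * g y) (m := m) (fun g => ⟨g y, D.OL_stable g y hy, rfl⟩)
  have e1 : ∏ g : L ≃ₐ[K] L, (1 + D.ϖ ^ m * g y) = ((normHom K L u : Lˣ) : L) := by
    rw [normHom_val]
    refine Finset.prod_congr rfl (fun g _ => ?_)
    rw [hu, map_add, map_one, map_mul, map_pow, D.ϖ_fix]
  rw [e1, ← Finset.mul_sum] at h
  exact h

/-! ### The two graded steps -/

lemma graded_zero (j : ℕ) (x : Lˣ) (hx : x ∈ D.V j) (hσ : sigmaSubOne σ x = 1) :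
    ∃ y ∈ D.V j, x / normHom K L y ∈ D.V (j + 1) := by
  obtain ⟨a, ha, hxa⟩ := mem_V.1 hx
  have hσx : σ (x : L) = x := by
    have : σ • x = x := by
      rw [sigmaSubOne_apply, div_eq_one] at hσ; exact hσ
    rw [← smul_val, this]
  have hσa : σ a = a := by
    have h1 : σ ((x : L) - 1) = (x : L) - 1 := by rw [map_sub, map_one, hσx]
    rw [hxa, map_mul, map_pow, D.ϖ_fix] at h1
    exact mul_left_cancel₀ (pow_ne_zero' _) h1
  obtain ⟨b, hb, hba⟩ := D.h0 a ha hσa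
  obtain ⟨y, hyV, hy⟩ := exists_unit_of_mem (D := D) j hb
  refine ⟨y, hyV, ?_⟩
  have hN := norm_expand (D := D) (D.M_le b hb) hy
  rw [hba] at hN
  -- N y = x + e with e ∈ ϖ^(2m) OL
  have hNV : normHom K L y ∈ D.V j := normHom_mem_V hyV
  have hNinv : (((normHom K L y)⁻¹ : Lˣ) : L) ∈ D.OL := V_inv_mem_OL hNV
  rw [mem_V]
  have h1 : ((x / normHom K L y : Lˣ) : L) - 1 =
      -((((normHom K L y : Lˣ) : L) - 1 - D.ϖ ^ (D.c + 1 + j) * a) *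
        (((normHom K L y)⁻¹ : Lˣ) : L)) := by
    rw [div_eq_mul_inv, Units.val_mul]
    have hinv : ((normHom K L y : Lˣ) : L) * (((normHom K L y)⁻¹ : Lˣ) : L) = 1 :=
      Units.mul_inv _
    have hx1 : (x : L) = 1 + D.ϖ ^ (D.c + 1 + j) * a := by rw [← hxa]; ring
    rw [hx1]
    linear_combination hinv
  rw [h1]
  have h2 := (hN.mul_mem hNinv).neg
  have h3 : D.c + (D.c + 1 + (j + 1)) ≤ 2 * (D.c + 1 + j) := by omega
  exact (h2.mono h3).toInM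

lemma graded_minus_one (j : ℕ) (x : Lˣ) (hx : x ∈ D.V j) (hN : normHom K L x = 1) :
    ∃ y ∈ D.V j, x / sigmaSubOne σ y ∈ D.V (j + 1) := by
  obtain ⟨a, ha, hxa⟩ := mem_V.1 hx
  have hx1 : (x : L) = 1 + D.ϖ ^ (D.c + 1 + j) * a := by rw [← hxa]; ring
  have hexp := norm_expand (D := D) (D.M_le a ha) hx1
  rw [hN, Units.val_one, sub_self, zero_sub] at hexp
  -- Tr a ∈ ϖ^m OL ⊆ ϖ M
  have hTr : ∃ y ∈ D.M, ∑ g : L ≃ₐ[K] L, g a = D.ϖ * y := by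
    obtain ⟨w, hw, hw'⟩ := hexp.neg
    rw [neg_neg] at hw'
    have h2 : ∑ g : L ≃ₐ[K] L, g a = D.ϖ ^ (D.c + 1 + j) * w := by
      have : D.ϖ ^ (D.c + 1 + j) * ∑ g : L ≃ₐ[K] L, g a =
          D.ϖ ^ (D.c + 1 + j) * (D.ϖ ^ (D.c + 1 + j) * w) := by
        rw [hw']; ring
      exact mul_left_cancel₀ (pow_ne_zero' _) this
    refine ⟨D.ϖ ^ D.c * (D.ϖ ^ j * w), D.OL_le _ (D.OL.mul_mem (pow_mem_OL j) hw), ?_⟩
    rw [h2]; ring
  obtain ⟨b, hb, y, hy, hby⟩ := D.hm1 a ha hTr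
  obtain ⟨u, huV, hu⟩ := exists_unit_of_mem (D := D) j hb
  refine ⟨u, huV, ?_⟩
  have hsV : sigmaSubOne σ u ∈ D.V j := sigmaSubOne_mem_V σ huV
  rw [mem_V]
  -- x / (σ u / u) - 1 = (x u - σ u) * (σ u)⁻¹
  have hσu : ((σ • u : Lˣ) : L) = 1 + D.ϖ ^ (D.c + 1 + j) * σ b := by
    rw [smul_val, hu, map_add, map_one, map_mul, map_pow, D.ϖ_fix]
  have h1 : ((x / sigmaSubOne σ u : Lˣ) : L) - 1 =
      (D.ϖ ^ (D.c + 1 + (j + 1)) * y + D.ϖ ^ (D.c + 1 + j) * a * (D.ϖ ^ (D.c + 1 + j) * b)) *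
        (((σ • u)⁻¹ : Lˣ) : L) := by
    rw [sigmaSubOne_apply, div_div_eq_mul_div, div_eq_mul_inv, Units.val_mul, Units.val_mul]
    have hinv : ((σ • u : Lˣ) : L) * (((σ • u)⁻¹ : Lˣ) : L) = 1 := Units.mul_inv _
    rw [hx1, hu]
    rw [hσu] at hinv
    have hby' : a = σ b - b + D.ϖ * y := by linear_combination hby
    have e : D.ϖ ^ (D.c + 1 + (j + 1)) = D.ϖ ^ (D.c + 1 + j) * D.ϖ := by
      rw [← pow_succ]; rfl
    rw [e]
    linear_combination hinv + (D.ϖ ^ (D.c + 1 + j) * (((σ • u)⁻¹ : Lˣ) : L)) * hby'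
  rw [h1]
  have hA : D.InM (D.c + 1 + (j + 1)) (D.ϖ ^ (D.c + 1 + (j + 1)) * y) := ⟨y, hy, rfl⟩
  have hB : D.InM (D.c + 1 + (j + 1))
      (D.ϖ ^ (D.c + 1 + j) * a * (D.ϖ ^ (D.c + 1 + j) * b)) := by
    have hBO : D.InO ((D.c + 1 + j) + (D.c + 1 + j))
        (D.ϖ ^ (D.c + 1 + j) * a * (D.ϖ ^ (D.c + 1 + j) * b)) :=
      InO.mul ⟨a, D.M_le a ha, rfl⟩ ⟨b, D.M_le b hb, rfl⟩
    have h3 : D.c + (D.c + 1 + (j + 1)) ≤ (D.c + 1 + j) + (D.c + 1 + j) := by omega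
    exact (hBO.mono h3).toInM
  exact InM.mul_V (hA.add hB) ((D.V j).inv_mem (smul_mem_V σ huV))

/-! ### Main abstract theorem -/

theorem exists_norm_of_fixed (x : Lˣ) (hx : x ∈ D.V 0) (hσ : σ • x = x) :
    ∃ y ∈ D.V 0, ∏ g : L ≃ₐ[K] L, g • y = x := by
  have h := Fermat.Agent.S55.Local.H535.filtKerIm Lˣ (sigmaSubOne σ) (normHom K L) D.V
    (fun j => V_anti (Nat.le_succ j))
    (fun j x hx => normHom_mem_V hx)
    V_complete V_separated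
    (fun x => sigmaSubOne_normHom σ x)
    (fun j x hx hfx => graded_zero j x hx hfx)
    x hx (by rw [sigmaSubOne_apply, hσ, div_self'])
  exact h

theorem exists_sigmaSubOne_of_norm_one (x : Lˣ) (hx : x ∈ D.V 0)
    (hN : ∏ g : L ≃ₐ[K] L, g • x = 1) :
    ∃ y ∈ D.V 0, σ • y / y = x := by
  have h := Fermat.Agent.S55.Local.H535.filtKerIm Lˣ (normHom K L) (sigmaSubOne σ) D.V
    (fun j => V_anti (Nat.le_succ j))
    (fun j x hx => sigmaSubOne_mem_V σ hx)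
    V_complete V_separated
    (fun x => normHom_sigmaSubOne σ x)
    (fun j x hx hfx => graded_minus_one j x hx hfx)
    x hx hN
  exact h

end LatData

end Fermat.Agent.S55.Local.H854
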