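import Fermat.Agent.S55.Local.H715.Integers
import Fermat.Prelude.Thm_IsAdicComplete_of_module_finite

/-!
# S55 layer L (helper854): `π`-adic completeness of the ring of integers, element form
-/

set_option autoImplicit false
set_option linter.unusedSectionVars false

namespace Fermat.Agent.S55.Local.H854

open Fermat.Agent.S55.Local IsLocalRing

section General

variable {A : Type} [CommRing A] [IsDomain A] [IsDiscreteValuationRing A]
  {M : Type} [AddCommGroup M] [Module A M]

lemma mem_pow_smul_top_iff {π : A} (hπ : Irreducible π) (n : ℕ) (z : M) :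
    z ∈ (maximalIdeal A ^ n • ⊤ : Submodule A M) ↔ ∃ y : M, z = π ^ n • y := by
  rw [hπ.maximalIdeal_eq, Ideal.span_singleton_pow, Submodule.ideal_span_singleton_smul,
    Submodule.mem_smul_pointwise_iff_exists]
  constructor
  · rintro ⟨y, -, rfl⟩; exact ⟨y, rfl⟩
  · rintro ⟨y, rfl⟩; exact ⟨y, Submodule.mem_top, rfl⟩

lemma adic_complete_elem [IsAdicComplete (maximalIdeal A) M] {π : A} (hπ : Irreducible π)
    (x : ℕ → M) (hstep : ∀ n, ∃ y : M, x (n + 1) - x n = π ^ n • y) :
    ∃ s : M, ∀ n, ∃ y : M, s - x n = π ^ n • y := by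
  have hcauchy : ∀ {m n}, m ≤ n →
      x m ≡ x n [SMOD (maximalIdeal A ^ m • ⊤ : Submodule A M)] := by
    intro m n hmn
    induction n, hmn using Nat.le_induction with
    | base => exact SModEq.rfl
    | succ n hmn ih =>
      refine ih.trans ?_
      rw [SModEq.sub_mem, mem_pow_smul_top_iff hπ]
      obtain ⟨y, hy⟩ := hstep n
      obtain ⟨k, rfl⟩ := Nat.exists_eq_add_of_le hmn
      refine ⟨-(π ^ k • y), ?_⟩
      rw [smul_neg, smul_smul, ← pow_add, ← hy]
      abel
  obtain ⟨s, hs⟩ := IsPrecomplete.prec' (I := maximalIdeal A) x hcauchy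
  refine ⟨s, fun n => ?_⟩
  have := (hs n).symm
  rwa [SModEq.sub_mem, mem_pow_smul_top_iff hπ] at this

lemma adic_separated_elem [IsAdicComplete (maximalIdeal A) M] {π : A} (hπ : Irreducible π)
    (x : M) (hx : ∀ n, ∃ y : M, x = π ^ n • y) : x = 0 := by
  apply IsHausdorff.haus' (I := maximalIdeal A) x
  intro n
  rw [SModEq.sub_mem, sub_zero, mem_pow_smul_top_iff hπ]
  exact hx n

end General

end Fermat.Agent.S55.Local.H854
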