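import Fermat.Agent.S55.Local.H854.Lattice
import Fermat.Agent.S55.Local.H854.Adic

/-!
# S55 layer L, piece CY1 : `CyclicGoodSubgroupStatement` — helper854

For a cyclic extension `L / K` of local fields with generator `σ` we construct a subgroup
`V ≤ U_L` of finite index, Galois stable, with `Ĥ⁰(G, V) = Ĥ⁻¹(G, V) = 0`:
`V = 1 + π ^ (c + 1) M`, where `M` is the lattice spanned over `O_K` by a normal integral basis
and `π ^ c O_L ⊆ M`.
-/

set_option autoImplicit false
set_option linter.unusedSectionVars false
set_option linter.style.haveILetI false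

namespace Fermat.Agent.S55.Local.H854

open Fermat.Agent.S55.Local Fermat.Agent.S55.Local.H715 IsLocalRing Module

section Setup

variable (A F : Type) [CommRing A] [IsDomain A] [IsDiscreteValuationRing A]
  [IsAdicComplete (IsLocalRing.maximalIdeal A) A] [Finite (IsLocalRing.ResidueField A)]
  [Field F] [CharZero F] [Algebra A F] [IsFractionRing A F]
  (K : Type) [Field K] [Algebra F K] [FiniteDimensional F K]
  (L : Type) [Field L] [Algebra F L] [Algebra K L] [IsScalarTower F K L]
  [FiniteDimensional K L]
  [Algebra A K] [IsScalarTower A F K] [Algebra A L] [IsScalarTower A F L] [IsScalarTower A K L]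

include F in
lemma isAlgebraic_AK : Algebra.IsAlgebraic A K := by
  have := IsLocalization.isAlgebraic F (nonZeroDivisors A)
  exact Algebra.IsAlgebraic.trans A F K

include F in
/-- Every element of `K` becomes integral after multiplication by a power of `π`. -/
lemma exists_pow_mul_integral {π : A} (hπ : Irreducible π) (k : K) :
    ∃ n : ℕ, IsIntegral A (algebraMap A K π ^ n * k) := by
  haveI := isAlgebraic_AK A F K
  obtain ⟨y, hy0, hy⟩ := (Algebra.IsAlgebraic.isAlgebraic (R := A) k).exists_integral_multiple
  obtain ⟨n, u, hu⟩ := IsDiscreteValuationRing.associated_pow_irreducible hy0 hπ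
  refine ⟨n, ?_⟩
  have h1 : algebraMap A K π ^ n * k = algebraMap A K (u : A) * (y • k) := by
    rw [← map_pow, ← hu, map_mul, Algebra.smul_def]; ring
  rw [h1]
  exact isIntegral_algebraMap.mul hy

include F in
lemma pow_mul_integral_of_le {π : A} {k : K} {n m : ℕ} (hnm : n ≤ m)
    (h : IsIntegral A (algebraMap A K π ^ n * k)) : IsIntegral A (algebraMap A K π ^ m * k) := by
  obtain ⟨j, rfl⟩ := Nat.exists_eq_add_of_le hnm
  have : algebraMap A K π ^ (n + j) * k = algebraMap A K (π ^ j) * (algebraMap A K π ^ n * k) := by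
    rw [map_pow]; ring
  rw [this]
  exact isIntegral_algebraMap.mul h

include F in
/-- Bounded denominators: coordinates of integral elements in a fixed basis. -/
lemma exists_bound {ι : Type} [Fintype ι] (b : Basis ι K L) {π : A} (hπ : Irreducible π) :
    ∃ c : ℕ, ∀ x : L, IsIntegral A x → ∀ i, IsIntegral A (algebraMap A K π ^ c * b.repr x i) := by
  classical
  haveI : FiniteDimensional F L := FiniteDimensional.trans F K L
  haveI := finite_OL A F L
  obtain ⟨S, hS⟩ := (Module.Finite.fg_top : (⊤ : Submodule A (integralClosure A L)).FG)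
  choose n hn using fun (k : K) => exists_pow_mul_integral A F K hπ k
  refine ⟨∑ s ∈ S, ∑ i, n (b.repr (s : L) i), fun x hx i => ?_⟩
  set c := ∑ s ∈ S, ∑ i, n (b.repr (s : L) i) with hc
  have hmem : (⟨x, hx⟩ : integralClosure A L) ∈ Submodule.span A (S : Set (integralClosure A L)) := by
    rw [hS]; exact Submodule.mem_top
  have key : ∀ z : integralClosure A L, z ∈ Submodule.span A (S : Set (integralClosure A L)) →
      ∀ i, IsIntegral A (algebraMap A K π ^ c * b.repr (z : L) i) := by
    intro z hz
    induction hz using Submodule.span_induction with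
    | mem s hs =>
      intro i
      refine pow_mul_integral_of_le A F K ?_ (hn (b.repr (s : L) i))
      calc n (b.repr (s : L) i) ≤ ∑ j, n (b.repr (s : L) j) :=
            Finset.single_le_sum (f := fun j => n (b.repr (s : L) j))
              (fun _ _ => Nat.zero_le _) (Finset.mem_univ i)
        _ ≤ c := Finset.single_le_sum (f := fun t : integralClosure A L =>
              ∑ j, n (b.repr (t : L) j)) (fun _ _ => Nat.zero_le _) hs
    | zero => intro i; simp [isIntegral_zero]
    | add z w _ _ hz hw =>
      intro i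
      have : algebraMap A K π ^ c * b.repr ((z + w : integralClosure A L) : L) i =
          algebraMap A K π ^ c * b.repr (z : L) i + algebraMap A K π ^ c * b.repr (w : L) i := by
        rw [Subalgebra.coe_add, map_add, Finsupp.add_apply, mul_add]
      rw [this]
      exact (hz i).add (hw i)
    | smul a z _ hz =>
      intro i
      have h1 : ((a • z : integralClosure A L) : L) = (algebraMap A K a) • (z : L) := by
        rw [algebraMap_smul]; rfl
      have : algebraMap A K π ^ c * b.repr ((a • z : integralClosure A L) : L) i =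
          algebraMap A K a * (algebraMap A K π ^ c * b.repr (z : L) i) := by
        rw [h1, map_smul, Finsupp.smul_apply, smul_eq_mul]; ring
      rw [this]
      exact isIntegral_algebraMap.mul (hz i)
  exact key ⟨x, hx⟩ hmem i

include F in
/-- `1 + π w` is a unit of the ring of integers. -/
lemma exists_inv_one_add {π : A} (hπ : Irreducible π) (w : L) (hw : IsIntegral A w) :
    ∃ v : L, IsIntegral A v ∧ (1 + algebraMap K L (algebraMap A K π) * w) * v = 1 := by
  haveI : FiniteDimensional F L := FiniteDimensional.trans F K L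
  letI := isLocalRing_OL A F L
  haveI := isLocalHom_OL A F L
  set w' : integralClosure A L := ⟨w, hw⟩
  set ϖ' : integralClosure A L := algebraMap A (integralClosure A L) π
  have hϖ' : ϖ' ∈ maximalIdeal (integralClosure A L) := by
    rw [mem_maximalIdeal, mem_nonunits_iff]
    intro h
    exact hπ.not_isUnit (isUnit_of_map_unit (algebraMap A (integralClosure A L)) π h)
  have hmem : -(ϖ' * w') ∈ nonunits (integralClosure A L) := by
    rw [← mem_maximalIdeal]
    exact neg_mem (Ideal.mul_mem_right _ _ hϖ')
  obtain ⟨u, hu⟩ := isUnit_one_sub_self_of_mem_nonunits _ hmem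
  refine ⟨((u⁻¹ : (integralClosure A L)ˣ) : integralClosure A L),
    ((u⁻¹ : (integralClosure A L)ˣ) : integralClosure A L).2, ?_⟩
  have h1 : ((u : integralClosure A L) : L) = 1 + algebraMap K L (algebraMap A K π) * w := by
    rw [hu]
    simp only [sub_neg_eq_add, Subalgebra.coe_add, Subalgebra.coe_one, Subalgebra.coe_mul]
    congr 2
    show ((algebraMap A (integralClosure A L) π : integralClosure A L) : L) = _
    rw [← IsScalarTower.algebraMap_apply A K L]
    rfl
  rw [← h1, ← Subalgebra.coe_mul, Units.mul_inv, Subalgebra.coe_one]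

include F in
lemma complete_OK {π : A} (hπ : Irreducible π) (x : ℕ → K)
    (hx : ∀ n, x n ∈ (integralClosure A K).toSubring)
    (hstep : ∀ n, ∃ y ∈ (integralClosure A K).toSubring,
      x (n + 1) - x n = algebraMap A K π ^ n * y) :
    ∃ s ∈ (integralClosure A K).toSubring, ∀ n, ∃ y ∈ (integralClosure A K).toSubring,
      s - x n = algebraMap A K π ^ n * y := by
  haveI := finite_OL A F K
  haveI : IsAdicComplete (maximalIdeal A) (integralClosure A K) :=
    IsAdicComplete.of_module_finite (maximalIdeal A) (integralClosure A K)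
  have key : ∀ (n : ℕ) (y : integralClosure A K),
      ((π ^ n • y : integralClosure A K) : K) = algebraMap A K π ^ n * (y : K) := by
    intro n y
    rw [← map_pow, ← Algebra.smul_def]; rfl
  obtain ⟨s, hs⟩ := adic_complete_elem (M := integralClosure A K) hπ
    (fun n => ⟨x n, hx n⟩) (fun n => by
      obtain ⟨y, hy, hy'⟩ := hstep n
      refine ⟨⟨y, hy⟩, Subtype.ext ?_⟩
      rw [key]
      exact hy')
  refine ⟨s, s.2, fun n => ?_⟩
  obtain ⟨y, hy⟩ := hs n
  refine ⟨y, y.2, ?_⟩
  rw [← key, ← hy]
  rfl

include F in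
lemma separated_OK {π : A} (hπ : Irreducible π) (x : K)
    (hx : ∀ n, ∃ y ∈ (integralClosure A K).toSubring, x = algebraMap A K π ^ n * y) : x = 0 := by
  haveI := finite_OL A F K
  haveI : IsAdicComplete (maximalIdeal A) (integralClosure A K) :=
    IsAdicComplete.of_module_finite (maximalIdeal A) (integralClosure A K)
  have key : ∀ (n : ℕ) (y : integralClosure A K),
      ((π ^ n • y : integralClosure A K) : K) = algebraMap A K π ^ n * (y : K) := by
    intro n y
    rw [← map_pow, ← Algebra.smul_def]; rfl
  have hx0 : x ∈ (integralClosure A K).toSubring := by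
    obtain ⟨y, hy, rfl⟩ := hx 0
    simpa using hy
  have := adic_separated_elem (M := integralClosure A K) hπ ⟨x, hx0⟩ (fun n => by
    obtain ⟨y, hy, hy'⟩ := hx n
    refine ⟨⟨y, hy⟩, Subtype.ext ?_⟩
    rw [key]
    exact hy')
  exact congrArg Subtype.val this

include F in
/-- An integral normal basis. -/
lemma exists_integral_normalBasis [IsGalois K L] :
    ∃ (b : Basis (L ≃ₐ[K] L) K L) (θ : L), (∀ g, b g = g θ) ∧ IsIntegral A θ := by
  haveI : FiniteDimensional F L := FiniteDimensional.trans F K L
  haveI := isAlgebraic_AK A F L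
  set θ₀ : L := IsGalois.normalBasis K L 1
  obtain ⟨y, hy0, hy⟩ := (Algebra.IsAlgebraic.isAlgebraic (R := A) θ₀).exists_integral_multiple
  have hinj : Function.Injective (algebraMap A K) := by
    rw [IsScalarTower.algebraMap_eq A F K]
    exact (algebraMap F K).injective.comp (IsFractionRing.injective A F)
  have hyK : algebraMap A K y ≠ 0 := fun h => hy0 (hinj (by rw [h, map_zero]))
  refine ⟨(IsGalois.normalBasis K L).isUnitSMul (w := fun _ => algebraMap A K y)
    (fun _ => isUnit_iff_ne_zero.2 hyK), y • θ₀, fun g => ?_, hy⟩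
  rw [Basis.isUnitSMul_apply, IsGalois.normalBasis_apply, algebraMap_smul,
    ← algebraMap_smul K y θ₀, map_smul, algebraMap_smul]

include F in
lemma isIntegral_map_algEquiv (g : L ≃ₐ[K] L) {x : L} (hx : IsIntegral A x) :
    IsIntegral A (g x) :=
  IsIntegral.map (R := A) (A := K) g hx

/-- Finite index criterion: a subgroup `V` of `U` such that the classes of `U / V` are separated
by a map to a finite type has finite index. -/
lemma relIndex_ne_zero_of_map {G Q : Type} [Group G] [Finite Q] (U V : Subgroup G)
    (φ : U → Q) (hφ : ∀ u u' : U, φ u = φ u' → (u : G)⁻¹ * (u' : G) ∈ V) :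
    V.relIndex U ≠ 0 := by
  have hinj : Function.Injective (fun q : U ⧸ V.subgroupOf U => φ (Quotient.out q)) := by
    intro q q' h
    have h1 := hφ _ _ h
    have h2 : ((Quotient.out q : U) : U ⧸ V.subgroupOf U) = (Quotient.out q' : U) := by
      rw [QuotientGroup.eq, Subgroup.mem_subgroupOf]
      simpa using h1
    rw [QuotientGroup.out_eq', QuotientGroup.out_eq'] at h2
    exact h2
  haveI : Finite (U ⧸ V.subgroupOf U) := Finite.of_injective _ hinj
  exact Subgroup.index_ne_zero_of_finite

include F in
theorem cy1_aux [IsGalois K L] (σ : L ≃ₐ[K] L) (hgen : ∀ g, g ∈ Subgroup.zpowers σ) :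
    ∃ V : Subgroup Lˣ, V ≤ intUnits A F L ∧ V.relIndex (intUnits A F L) ≠ 0 ∧
      (∀ g : L ≃ₐ[K] L, ∀ x ∈ V, g • x ∈ V) ∧
      (∀ x ∈ V, σ • x = x → ∃ y ∈ V, ∏ g : L ≃ₐ[K] L, g • y = x) ∧
      (∀ x ∈ V, ∏ g : L ≃ₐ[K] L, g • x = 1 → ∃ y ∈ V, σ • y / y = x) := by
  classical
  haveI : FiniteDimensional F L := FiniteDimensional.trans F K L
  obtain ⟨π, hπ⟩ := IsDiscreteValuationRing.exists_irreducible A
  obtain ⟨b, θ, hb, hθ⟩ := exists_integral_normalBasis A F K L
  obtain ⟨c, hc⟩ := exists_bound A F K L b hπ
  have hinjK : Function.Injective (algebraMap A K) := by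
    rw [IsScalarTower.algebraMap_eq A F K]
    exact (algebraMap F K).injective.comp (IsFractionRing.injective A F)
  have hϖ0 : algebraMap A K π ≠ 0 := fun h => hπ.ne_zero (hinjK (by rw [h, map_zero]))
  let D : LatData K L σ := latDataOfBasis hgen b θ hb (integralClosure A K).toSubring
    (integralClosure A L).toSubring (algebraMap A K π) c
    (fun r hr => IsIntegral.algebraMap (R := A) (A := K) (B := L) hr)
    hθ
    (fun g x hx => isIntegral_map_algEquiv A F K L g hx)
    (isIntegral_algebraMap)
    hϖ0
    (fun w hw => by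
      obtain ⟨v, hv, hv'⟩ := exists_inv_one_add A F K L hπ w hw
      exact ⟨v, hv, hv'⟩)
    (fun x hx g => hc x hx g)
    (complete_OK A F K hπ)
    (separated_OK A F K hπ)
  have hDOL : ∀ x : L, x ∈ D.OL ↔ IsIntegral A x := fun x => Iff.rfl
  have hDϖ : D.ϖ = algebraMap K L (algebraMap A K π) := rfl
  have hDc : D.c = c := rfl
  refine ⟨D.V 0, ?_, ?_, ?_, ?_, ?_⟩
  · intro u hu
    rw [mem_intUnits]
    exact ⟨(isInt_iff A F L _).2 ((hDOL _).1 (LatData.V_val_mem_OL hu)),
      (isInt_iff A F L _).2 ((hDOL _).1 (LatData.V_inv_mem_OL hu))⟩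
  · -- finite index
    set ϖ' : integralClosure A L := algebraMap A (integralClosure A L) π with hϖ'
    have hϖ'L : ((ϖ' : integralClosure A L) : L) = D.ϖ := by
      rw [hDϖ, ← IsScalarTower.algebraMap_apply A K L]; rfl
    have hϖ'0 : ϖ' ≠ 0 := by
      intro h
      have := congrArg (fun z : integralClosure A L => (z : L)) h
      simp only [hϖ'L, Subalgebra.coe_zero] at this
      exact D.ϖ_ne this
    have hI : Ideal.span {ϖ' ^ (2 * c + 1)} ≠ (⊥ : Ideal (integralClosure A L)) := by
      rw [Ne, Ideal.span_singleton_eq_bot]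
      exact pow_ne_zero _ hϖ'0
    haveI := finite_quotient_OL A F L _ hI
    have hint : ∀ u : intUnits A F L, IsIntegral A ((u : Lˣ) : L) := fun u =>
      (isInt_iff A F L _).1 ((mem_intUnits A F L).1 u.2).1
    have hint' : ∀ u : intUnits A F L, IsIntegral A (((u : Lˣ)⁻¹ : Lˣ) : L) := fun u =>
      (isInt_iff A F L _).1 ((mem_intUnits A F L).1 u.2).2
    refine relIndex_ne_zero_of_map (intUnits A F L) (D.V 0)
      (fun u => Ideal.Quotient.mk (Ideal.span {ϖ' ^ (2 * c + 1)})
        (⟨((u : Lˣ) : L), hint u⟩ : integralClosure A L)) ?_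
    intro u u' h
    rw [Ideal.Quotient.eq, Ideal.mem_span_singleton'] at h
    obtain ⟨t, ht⟩ := h
    have ht' : (t : L) * D.ϖ ^ (2 * c + 1) = ((u : Lˣ) : L) - ((u' : Lˣ) : L) := by
      have := congrArg (fun z : integralClosure A L => (z : L)) ht
      simp only [Subalgebra.coe_mul, Subalgebra.coe_pow, hϖ'L, Subalgebra.coe_sub] at this
      exact this
    apply LatData.mem_V0_of_inO
    rw [hDc]
    refine ⟨-((t : L) * (((u : Lˣ)⁻¹ : Lˣ) : L)),
      (hDOL _).2 ((t.2.mul (hint' u)).neg), ?_⟩
    rw [Units.val_mul]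
    have hinv : (((u : Lˣ)⁻¹ : Lˣ) : L) * ((u : Lˣ) : L) = 1 := Units.inv_mul _
    linear_combination ((((u : Lˣ)⁻¹ : Lˣ) : L)) * ht' + hinv
  · intro g x hx
    exact LatData.smul_mem_V g hx
  · intro x hx hσ
    exact LatData.exists_norm_of_fixed x hx hσ
  · intro x hx hN
    exact LatData.exists_sigmaSubOne_of_norm_one x hx hN

end Setup

/-- **CY1**: a cohomologically trivial subgroup of finite index in the units of a cyclic
extension of local fields. -/
theorem cyclicGoodSubgroup : Fermat.Agent.S55.Local.CyclicGoodSubgroupStatement := by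
  intro A F _ _ _ _ _ _ _ _ _ K _ _ _ L _ _ _ _ _ _ σ hgen
  letI : Algebra A K := algAL A F K
  haveI : IsScalarTower A F K := isScalarTower_algAL A F K
  letI : Algebra A L := algAL A F L
  haveI : IsScalarTower A F L := isScalarTower_algAL A F L
  haveI : IsScalarTower A K L := IsScalarTower.of_algebraMap_eq (fun a => by
    show toL A F L a = algebraMap K L (toL A F K a)
    rw [toL_apply, toL_apply, ← IsScalarTower.algebraMap_apply F K L])
  exact cy1_aux A F K L σ hgen

end Fermat.Agent.S55.Local.H854
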