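import Fermat.Agent.S55.Local.H854.Abstract

/-!
# S55 layer L, piece CY1 (normal basis lattice) — helper854

`L / K` finite with group `G = L ≃ₐ[K] L` generated by `σ`, `b` a normal basis (`b g = g θ`),
`OK ⊆ K`, `OL ⊆ L` subrings.  The lattice `M = {x | all coordinates of x lie in OK}` satisfies the
hypotheses of `LatData` as soon as `OK` is `ϖ`-adically complete and separated, `θ ∈ OL`,
`ϖ ^ c OL ⊆ M` and `1 + ϖ OL ⊆ OLˣ`.
-/

set_option autoImplicit false
set_option linter.unusedSectionVars false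

namespace Fermat.Agent.S55.Local.H854

open Module

variable {K L : Type} [Field K] [Field L] [Algebra K L] [FiniteDimensional K L]

section Coord

variable (b : Basis (L ≃ₐ[K] L) K L) (θ : L) (hb : ∀ g, b g = g θ)

include hb in
/-- Coordinates in a normal basis transform by translation. -/
lemma repr_apply_mul (h : L ≃ₐ[K] L) (x : L) (g : L ≃ₐ[K] L) :
    b.repr (h x) (h * g) = b.repr x g := by
  have hmap : b.map h.toLinearEquiv = b.reindex (Equiv.mulLeft h⁻¹) := by
    apply Basis.eq_of_apply_eq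
    intro g
    rw [Basis.map_apply, Basis.reindex_apply]
    show h (b g) = b ((Equiv.mulLeft h⁻¹).symm g)
    rw [hb, hb]
    have : (Equiv.mulLeft h⁻¹).symm g = h * g := by
      simp
    rw [this, AlgEquiv.mul_apply]
  have h1 : (b.map h.toLinearEquiv).repr (h x) g = b.repr x g := by
    rw [Basis.map_repr]
    simp
  have h2 : (b.reindex (Equiv.mulLeft h⁻¹)).repr (h x) g = b.repr (h x) (h * g) := by
    rw [Basis.repr_reindex_apply]
    simp
  rw [← h2, ← hmap, h1]

include hb in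
lemma repr_apply_inv_mul (h : L ≃ₐ[K] L) (x : L) (g : L ≃ₐ[K] L) :
    b.repr (h x) g = b.repr x (h⁻¹ * g) := by
  have := repr_apply_mul b θ hb h x (h⁻¹ * g)
  rwa [mul_inv_cancel_left] at this

/-- The lattice of elements with integral coordinates. -/
def latM (OK : Subring K) : AddSubgroup L where
  carrier := {x | ∀ g, b.repr x g ∈ OK}
  zero_mem' := by intro g; simp
  add_mem' := by
    intro x y hx hy g
    simp only [map_add, Finsupp.add_apply]
    exact OK.add_mem (hx g) (hy g)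
  neg_mem' := by
    intro x hx g
    simp only [map_neg, Finsupp.neg_apply]
    exact OK.neg_mem (hx g)

variable {b} {OK : Subring K}

lemma mem_latM {x : L} : x ∈ latM b OK ↔ ∀ g, b.repr x g ∈ OK := Iff.rfl

lemma smul_mem_latM {r : K} (hr : r ∈ OK) {x : L} (hx : x ∈ latM b OK) : r • x ∈ latM b OK := by
  intro g
  rw [map_smul, Finsupp.smul_apply, smul_eq_mul]
  exact OK.mul_mem hr (hx g)

lemma algebraMap_mul_mem_latM {r : K} (hr : r ∈ OK) {x : L} (hx : x ∈ latM b OK) :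
    algebraMap K L r * x ∈ latM b OK := by
  rw [← Algebra.smul_def]; exact smul_mem_latM hr hx

lemma basis_mem_latM (g : L ≃ₐ[K] L) : b g ∈ latM b OK := by
  classical
  intro h
  rw [Basis.repr_self_apply]
  split_ifs
  · exact OK.one_mem
  · exact OK.zero_mem

/-- The element with prescribed coordinates. -/
noncomputable def ofCoord (b : Basis (L ≃ₐ[K] L) K L) (f : (L ≃ₐ[K] L) → K) : L :=
  b.equivFun.symm f

lemma repr_ofCoord (f : (L ≃ₐ[K] L) → K) (g : L ≃ₐ[K] L) : b.repr (ofCoord b f) g = f g := by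
  have := congrFun (b.equivFun.apply_symm_apply f) g
  rwa [Basis.equivFun_apply] at this

lemma ofCoord_mem_latM {f : (L ≃ₐ[K] L) → K} (hf : ∀ g, f g ∈ OK) : ofCoord b f ∈ latM b OK := by
  intro g; rw [repr_ofCoord]; exact hf g

lemma repr_algebraMap_pow_mul (ϖK : K) (n : ℕ) (x : L) (g : L ≃ₐ[K] L) :
    b.repr (algebraMap K L ϖK ^ n * x) g = ϖK ^ n * b.repr x g := by
  have : algebraMap K L ϖK ^ n * x = (ϖK ^ n) • x := by rw [Algebra.smul_def, map_pow]
  rw [this, map_smul, Finsupp.smul_apply, smul_eq_mul]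

lemma repr_algebraMap_mul (ϖK : K) (x : L) (g : L ≃ₐ[K] L) :
    b.repr (algebraMap K L ϖK * x) g = ϖK * b.repr x g := by
  have := repr_algebraMap_pow_mul (b := b) ϖK 1 x g
  simpa using this

end Coord

section Build

variable {σ : L ≃ₐ[K] L} (hgen : ∀ g : L ≃ₐ[K] L, g ∈ Subgroup.zpowers σ)
  (b : Basis (L ≃ₐ[K] L) K L) (θ : L) (hb : ∀ g, b g = g θ)
  (OK : Subring K) (OL : Subring L) (ϖK : K) (c : ℕ)
  (hOKL : ∀ r ∈ OK, algebraMap K L r ∈ OL)
  (hθ : θ ∈ OL)
  (hst : ∀ (g : L ≃ₐ[K] L) (x : L), x ∈ OL → g x ∈ OL)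
  (hϖ : ϖK ∈ OK) (hϖ0 : ϖK ≠ 0)
  (hunit : ∀ w ∈ OL, ∃ v ∈ OL, (1 + algebraMap K L ϖK * w) * v = 1)
  (hc : ∀ x ∈ OL, ∀ g, ϖK ^ c * b.repr x g ∈ OK)
  (hcomplete : ∀ x : ℕ → K, (∀ n, x n ∈ OK) → (∀ n, ∃ y ∈ OK, x (n + 1) - x n = ϖK ^ n * y) →
      ∃ s ∈ OK, ∀ n, ∃ y ∈ OK, s - x n = ϖK ^ n * y)
  (hsep : ∀ x : K, (∀ n, ∃ y ∈ OK, x = ϖK ^ n * y) → x = 0)

include hb hOKL hθ hst in
lemma latM_le {x : L} (hx : x ∈ latM b OK) : x ∈ OL := by
  rw [← b.sum_repr x]
  refine OL.sum_mem (fun g _ => ?_)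
  rw [Algebra.smul_def, hb]
  exact OL.mul_mem (hOKL _ (hx g)) (hst g θ hθ)

include hb in
lemma latM_stable (h : L ≃ₐ[K] L) {x : L} (hx : x ∈ latM b OK) : h x ∈ latM b OK := by
  intro g
  rw [repr_apply_inv_mul b θ hb]
  exact hx _

include hcomplete in
lemma latM_complete (t : ℕ → L) (ht : ∀ n, t n ∈ latM b OK)
    (hstep : ∀ n, ∃ y ∈ latM b OK, t (n + 1) - t n = algebraMap K L ϖK ^ n * y) :
    ∃ s ∈ latM b OK, ∀ n, ∃ y ∈ latM b OK, s - t n = algebraMap K L ϖK ^ n * y := by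
  have hcoord : ∀ g : L ≃ₐ[K] L, ∃ s ∈ OK, ∀ n, ∃ y ∈ OK,
      s - b.repr (t n) g = ϖK ^ n * y := by
    intro g
    refine hcomplete (fun n => b.repr (t n) g) (fun n => ht n g) (fun n => ?_)
    obtain ⟨y, hy, hy'⟩ := hstep n
    refine ⟨b.repr y g, hy g, ?_⟩
    have := congrArg (fun z => b.repr z g) hy'
    simp only [map_sub, Finsupp.sub_apply] at this
    rw [this, repr_algebraMap_pow_mul]
  choose s hs hs' using hcoord
  choose y hy hy' using hs'
  refine ⟨ofCoord b s, ofCoord_mem_latM hs, fun n => ?_⟩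
  refine ⟨ofCoord b (fun g => y g n), ofCoord_mem_latM (fun g => hy g n), ?_⟩
  rw [b.ext_elem_iff]
  intro g
  rw [map_sub, Finsupp.sub_apply, repr_ofCoord, repr_algebraMap_pow_mul, repr_ofCoord]
  exact hy' g n

include hsep in
lemma latM_separated (x : L)
    (hx : ∀ n, ∃ y ∈ latM b OK, x = algebraMap K L ϖK ^ n * y) : x = 0 := by
  rw [b.ext_elem_iff]
  intro g
  rw [map_zero, Finsupp.zero_apply]
  apply hsep
  intro n
  obtain ⟨y, hy, rfl⟩ := hx n
  exact ⟨b.repr y g, hy g, repr_algebraMap_pow_mul ϖK n y g⟩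

include hb hgen in
/-- A `σ`-invariant element has constant coordinates. -/
lemma repr_const_of_fixed {a : L} (hσ : σ a = a) (g : L ≃ₐ[K] L) :
    b.repr a g = b.repr a 1 := by
  have h1 : ∀ g, b.repr a (σ * g) = b.repr a g := by
    intro g
    have := repr_apply_mul b θ hb σ a g
    rwa [hσ] at this
  have h2 : ∀ (k : ℕ) g, b.repr a (σ ^ k * g) = b.repr a g := by
    intro k
    induction k with
    | zero => intro g; simp
    | succ k ih => intro g; rw [pow_succ', mul_assoc, h1, ih]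
  have hg := hgen g
  rw [← mem_powers_iff_mem_zpowers, Submonoid.mem_powers_iff] at hg
  obtain ⟨k, rfl⟩ := hg
  have := h2 k 1
  rwa [mul_one] at this

include hb hgen in
lemma latM_h0 {a : L} (ha : a ∈ latM b OK) (hσ : σ a = a) :
    ∃ y ∈ latM b OK, ∑ g : L ≃ₐ[K] L, g y = a := by
  refine ⟨b.repr a 1 • b 1, smul_mem_latM (ha 1) (basis_mem_latM 1), ?_⟩
  conv_rhs => rw [← b.sum_repr a]
  refine Finset.sum_congr rfl (fun g _ => ?_)
  rw [repr_const_of_fixed hgen b θ hb hσ g, map_smul, hb, hb]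
  simp

include hb in
/-- All coordinates of the trace of `a` are equal to the sum of the coordinates of `a`. -/
lemma repr_trace (a : L) (g : L ≃ₐ[K] L) :
    b.repr (∑ h : L ≃ₐ[K] L, h a) g = ∑ h : L ≃ₐ[K] L, b.repr a h := by
  rw [map_sum, Finsupp.finsetSum_apply]
  simp only [repr_apply_inv_mul b θ hb]
  exact Fintype.sum_equiv ((Equiv.inv _).trans (Equiv.mulRight g)) _ _ (fun h => rfl)

include hb hgen in
lemma latM_hm1 {a : L} (ha : a ∈ latM b OK)
    (hTr : ∃ y ∈ latM b OK, ∑ g : L ≃ₐ[K] L, g a = algebraMap K L ϖK * y) :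
    ∃ z ∈ latM b OK, ∃ y ∈ latM b OK, a - (σ z - z) = algebraMap K L ϖK * y := by
  classical
  obtain ⟨y, hy, hy'⟩ := hTr
  -- the sum of the coordinates of `a`
  have hR : ∑ h : L ≃ₐ[K] L, b.repr a h = ϖK * b.repr y 1 := by
    rw [← repr_trace b θ hb a 1, hy', repr_algebraMap_mul]
  -- choose exponents
  have hk : ∀ g : L ≃ₐ[K] L, ∃ k : ℕ, σ ^ k = g := by
    intro g
    have hg := hgen g
    rwa [← mem_powers_iff_mem_zpowers, Submonoid.mem_powers_iff] at hg
  choose k hk using hk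
  -- telescoping elements
  set w : (L ≃ₐ[K] L) → L := fun g => ∑ i ∈ Finset.range (k g), b (σ ^ i) with hw
  have hwM : ∀ g, w g ∈ latM b OK := fun g =>
    (latM b OK).sum_mem (fun i _ => basis_mem_latM _)
  have hwσ : ∀ g, σ (w g) - w g = b g - b 1 := by
    intro g
    have h1 : σ (w g) = ∑ i ∈ Finset.range (k g), b (σ ^ (i + 1)) := by
      simp only [hw, map_sum]
      refine Finset.sum_congr rfl (fun i _ => ?_)
      rw [hb, hb, pow_succ', AlgEquiv.mul_apply]
    rw [h1, ← Finset.sum_sub_distrib, Finset.sum_range_sub (fun i => b (σ ^ i)), hk, pow_zero]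
  refine ⟨∑ g : L ≃ₐ[K] L, b.repr a g • w g,
    (latM b OK).sum_mem (fun g _ => smul_mem_latM (ha g) (hwM g)),
    b.repr y 1 • b 1, smul_mem_latM (hy 1) (basis_mem_latM 1), ?_⟩
  have h2 : σ (∑ g : L ≃ₐ[K] L, b.repr a g • w g) - ∑ g : L ≃ₐ[K] L, b.repr a g • w g =
      a - (∑ h : L ≃ₐ[K] L, b.repr a h) • b 1 := by
    have e1 : σ (∑ g : L ≃ₐ[K] L, b.repr a g • w g) =
        ∑ g : L ≃ₐ[K] L, b.repr a g • σ (w g) := by
      rw [map_sum]
      exact Finset.sum_congr rfl (fun g _ => map_smul σ _ _)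
    have e2 : ∀ g : L ≃ₐ[K] L, b.repr a g • σ (w g) - b.repr a g • w g =
        b.repr a g • b g - b.repr a g • b 1 := by
      intro g
      rw [← smul_sub, hwσ, smul_sub]
    rw [e1, ← Finset.sum_sub_distrib, Finset.sum_congr rfl (fun g _ => e2 g),
      Finset.sum_sub_distrib, b.sum_repr, ← Finset.sum_smul]
  rw [h2, hR, Algebra.smul_def, Algebra.smul_def, map_mul]
  ring

include hgen hb hOKL hθ hst hϖ hϖ0 hunit hc hcomplete hsep in
/-- The lattice data attached to a normal basis. -/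
noncomputable def latDataOfBasis : LatData K L σ where
  OL := OL
  M := latM b OK
  ϖ := algebraMap K L ϖK
  c := c
  ϖ_ne := by
    intro h
    exact hϖ0 ((algebraMap K L).injective (by rw [h, map_zero]))
  ϖ_mem := hOKL _ hϖ
  ϖ_fix := fun g => g.commutes ϖK
  OL_stable := hst
  unit := hunit
  M_le := fun x hx => latM_le b θ hb OK OL hOKL hθ hst hx
  OL_le := fun x hx g => by
    rw [repr_algebraMap_pow_mul]; exact hc x hx g
  ϖM := fun x hx => algebraMap_mul_mem_latM hϖ hx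
  M_stable := fun g x hx => latM_stable b θ hb OK g hx
  complete := latM_complete b OK ϖK hcomplete
  separated := latM_separated b OK ϖK hsep
  h0 := fun a ha hσ => latM_h0 hgen b θ hb OK ha hσ
  hm1 := fun a ha hTr => latM_hm1 hgen b θ hb OK ϖK ha hTr

end Build

end Fermat.Agent.S55.Local.H854
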